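import Mathlib
import Fermat.Agent.LT.T7.H140.SpecDownQSpec
import Fermat.Agent.LT.T7.H706.BCUnitCore

/-!
# Row LT, tower T7, node T7.L2Q.3 `SpecDownQC`, LEAF T7.L2Q.3.5 `BCUnitQC` (helper69, registry 2289)

OFF-MAIN.  `bcUnitQC69 F n : SDQ140.BCUnitQC F n` for every number field `F` and both types `n`,
against the frozen bytes `LT/T7/H140/SpecDownQSpec.lean` (helper140, commit 26e3e6c54, sha256
7aa829b7).  The algebraic core (unitarity of the Satake powers) is `LT/T7/H706/BCUnitCore.lean`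
(helper706, commit 4999105c1, sha256 e10e0e50; Mathlib + Prelude only), a byte-identical copy.

Finite part: the residue field of a finite place `w` of `F` is a finite field, of characteristic
`p` say; then `p ∈ w` and `N w = p ^ f` (`exists_prime_pow69`); the place `v = (p)` of `ℚ` has norm
`p` (`ratPlace69`).  Archimedean part: `c.m` real and bounded by `2π` gives `sphRad n.wt s ∘ cosh`
real and bounded by `1`, and the hypothesis `T6.Inf.UpUnitaryC` gives the same for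
`sphC (2 s) ∘ cosh`.
-/

set_option autoImplicit false

open AutomorphicForm IsDedekindDomain NumberField MeasureTheory
open scoped ComplexConjugate

noncomputable section

namespace Fermat.Agent.LT.T7.H69

open Fermat.Agent.LT.H556 Fermat.Agent.LT.H556.A0 Fermat.Agent.LT.H670 Fermat.Agent.LT.T7
open Fermat.Agent.LT.T7.L2Q

/-- A finite place of a number field lies over a rational prime `p`, and its norm is a power of
`p`. -/
theorem exists_prime_pow69 {F : Type} [Field F] [NumberField F] (w : HeightOneSpectrum (𝓞 F)) :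
    ∃ p f : ℕ, p.Prime ∧ ((p : ℕ) : 𝓞 F) ∈ w.asIdeal ∧ Ideal.absNorm w.asIdeal = p ^ f := by
  have : w.asIdeal.IsMaximal := w.isMaximal
  let _ : Field (𝓞 F ⧸ w.asIdeal) := Ideal.Quotient.field w.asIdeal
  have hN : Ideal.absNorm w.asIdeal ≠ 0 := by
    rw [Ne, Ideal.absNorm_eq_zero_iff]
    exact w.ne_bot
  have hcard : Nat.card (𝓞 F ⧸ w.asIdeal) = Ideal.absNorm w.asIdeal := by
    rw [Ideal.absNorm_apply, Submodule.cardQuot_apply]
  have : Finite (𝓞 F ⧸ w.asIdeal) := Nat.finite_of_card_ne_zero (hcard ▸ hN)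
  let _ : Fintype (𝓞 F ⧸ w.asIdeal) := Fintype.ofFinite _
  obtain ⟨p, hchar⟩ := CharP.exists (𝓞 F ⧸ w.asIdeal)
  obtain ⟨f, hp, hf⟩ := FiniteField.card (𝓞 F ⧸ w.asIdeal) p
  refine ⟨p, f, hp, ?_, ?_⟩
  · rw [← Ideal.Quotient.eq_zero_iff_mem, map_natCast]
    exact CharP.cast_eq_zero _ p
  · rw [← hcard, Nat.card_eq_fintype_card, hf]

/-- The place `(p)` of `ℚ`: it contains `p` and has norm `p`. -/
theorem ratPlace69 (p : ℕ) (hp : p.Prime) :
    ∃ v : HeightOneSpectrum (𝓞 ℚ), ((p : ℕ) : 𝓞 ℚ) ∈ v.asIdeal ∧ Ideal.absNorm v.asIdeal = p := by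
  have hpne : ((p : ℕ) : 𝓞 ℚ) ≠ 0 := by
    exact_mod_cast hp.ne_zero
  have hprime : (Ideal.span {((p : ℕ) : 𝓞 ℚ)}).IsPrime := by
    rw [Ideal.span_singleton_prime hpne]
    have hpZ : Prime ((p : ℕ) : ℤ) := Nat.prime_iff_prime_int.1 hp
    refine (MulEquiv.prime_iff Rat.ringOfIntegersEquiv).1 ?_
    rw [map_natCast]
    exact hpZ
  have hbot : Ideal.span {((p : ℕ) : 𝓞 ℚ)} ≠ ⊥ := by
    simpa [Ideal.span_singleton_eq_bot] using hpne
  refine ⟨⟨Ideal.span {((p : ℕ) : 𝓞 ℚ)}, hprime, hbot⟩, Ideal.mem_span_singleton_self _, ?_⟩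
  show Ideal.absNorm (Ideal.span {((p : ℕ) : 𝓞 ℚ)}) = p
  have h1 : ((p : ℕ) : 𝓞 ℚ) = algebraMap ℤ (𝓞 ℚ) ((p : ℕ) : ℤ) := by
    simp
  rw [Ideal.absNorm_span_singleton, h1, Algebra.norm_algebraMap, RingOfIntegers.rank,
    Module.finrank_self, pow_one, Int.natAbs_natCast]

/-- **LEAF T7.L2Q.3.5 `BCUnitQC`**, VERBATIM. -/
theorem bcUnitQC69 (F : Type) [Field F] [NumberField F] (n : QWt) :
    Fermat.Agent.LT.T7.SDQ140.BCUnitQC F n := by
  intro hUni S' 𝔫 c C hS hc hBC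
  refine ⟨fun w hw => ?_, fun w d hd => ?_⟩
  · obtain ⟨p, f, hp, hpw, hNw⟩ := exists_prime_pow69 w
    obtain ⟨v, hpv, hNv⟩ := ratPlace69 p hp
    have hv : ¬ v.asIdeal ∣ 𝔫 := hS w hw p v hp hpw hpv
    obtain ⟨hb, ha, hn⟩ := hc.1 v hv
    obtain ⟨hCa, hCb⟩ := hBC.1 p hp (Finset.notMem_empty p) v hpv w f hpw hNw
    have hq : (1 : ℝ) ≤ (p : ℝ) := by
      exact_mod_cast hp.one_le
    rw [hNv] at hn
    have hNwR : (Ideal.absNorm w.asIdeal : ℝ) = (p : ℝ) ^ f := by
      rw [hNw]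
      push_cast
      rfl
    refine ⟨?_, ?_, ?_⟩
    · rw [hCb, norm_pow, hb, one_pow]
    · rw [hCa, hCb]
      exact H706.conj_satakePow706 _ _ hb ha f
    · rw [hCa, hNwR]
      exact H706.norm_satakePow_le706 _ _ hb ha _ hq hn f
  · obtain ⟨s, hcm, hCm⟩ := hBC.2
    have hwt : n.wt = 0 ∨ n.wt = 1 ∨ n.wt = -1 := by
      cases n
      · exact Or.inl rfl
      · exact Or.inr (Or.inr rfl)
    have w₀ : InfinitePlace ℚ := Classical.arbitrary _
    have hpi : (0 : ℝ) < 2 * Real.pi := by positivity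
    have hpi4 : (0 : ℝ) < 4 * Real.pi := by positivity
    have key : ∀ t : ℝ, 0 < t →
        (T6.sphRad n.wt s (Real.cosh t)).im = 0 ∧ ‖T6.sphRad n.wt s (Real.cosh t)‖ ≤ 1 := by
      intro t ht
      obtain ⟨h1, h2⟩ := hc.2 w₀ t ht
      rw [hcm w₀ t ht] at h1 h2
      constructor
      · rw [Complex.im_ofReal_mul] at h1
        exact (mul_eq_zero.1 h1).resolve_left hpi.ne'
      · rw [norm_mul, Complex.norm_real, Real.norm_of_nonneg hpi.le] at h2
        by_contra hgt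
        rw [not_le] at hgt
        nlinarith
    obtain ⟨h1, h2⟩ := hUni n.wt hwt s key d hd
    rw [hCm w d hd]
    constructor
    · rw [Complex.im_ofReal_mul, h1, mul_zero]
    · rw [norm_mul, Complex.norm_real, Real.norm_of_nonneg hpi4.le]
      calc 4 * Real.pi * ‖T6.sphC (2 * s) (Real.cosh d)‖ ≤ 4 * Real.pi * 1 :=
            mul_le_mul_of_nonneg_left h2 hpi4.le
        _ = 4 * Real.pi := mul_one _

end Fermat.Agent.LT.T7.H69

end
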