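import Mathlib
import Fermat.Agent.LT.T7.H57.FoldSpec4
import Fermat.Agent.LT.T7.H724.CountMeas

/-!
# Row LT, tower T7, node `FoldWhitC`, LEAF T7.14.6a-F.11 `CntSumC57` (helper69, registry 2209)

OFF-MAIN.  Imports the cut `LT/T7/H57/FoldSpec4.lean` (helper57, commit 6a1f79c59, sha256 bd9f6d74)
and the measurability leaf `LT/T7/H724/CountMeas.lean` (helper724, commit 081bc9e9c, sha256
13dbea42) byte-identically.  Nothing is assumed: `T1.T1Out K`, `TotCplx K`, `IsSupp S m` and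
`0 < Y` are not used, and of the frame only the left invariance of the measure and the
measurability of the domain.

For a point `x` of the projective line the matrix `gamA57 K x` has bottom row `x.rep` and
determinant `1`, so `gamA57 K x * g` lies in `EY57` exactly when `x` lies in `cntSet m Y g`
(`mem_EY_gam69`).  The set `EY57` is measurable, being the preimage of `{g | x₀ ∈ cntSet m Y g}`
under a left translation.  Termwise integration of the sum (`lintegral_tsum`), the left invariance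
of the measure and of `Φ`, and `∑_x 1[x ∈ s] = encard s`.
-/

set_option autoImplicit false

open AutomorphicForm IsDedekindDomain NumberField Filter Topology MeasureTheory
open scoped ComplexConjugate ENNReal

noncomputable section

namespace Fermat.Agent.LT.T7.H69

open Fermat.Agent.LT.H556 Fermat.Agent.LT.H556.A0 Fermat.Agent.LT.T7 Fermat.Agent.LT.T7.Rigid
open Fermat.Agent.LT.T7.H57

attribute [local instance] Fermat.Agent.LT.T5.instMeasurableSpaceG

variable (K : Type) [Field K] [NumberField K]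

/-! ## The matrix `γ_x` -/

theorem gamMat_one_zero69 (x : Projectivization K (Fin 2 → K)) :
    gamMat57 K x 1 0 = x.rep 0 := by
  unfold gamMat57
  split_ifs <;> simp

theorem gamMat_one_one69 (x : Projectivization K (Fin 2 → K)) :
    gamMat57 K x 1 1 = x.rep 1 := by
  unfold gamMat57
  split_ifs <;> simp

theorem gamA_entry69 (x : Projectivization K (Fin 2 → K)) (i j : Fin 2) :
    (gamA57 K x : Matrix (Fin 2) (Fin 2) (Adl K)) i j = algebraMap K (Adl K) (gamMat57 K x i j) := by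
  unfold gamA57
  rw [Matrix.GeneralLinearGroup.map_apply]
  rfl

theorem botRow_gamA69 (x : Projectivization K (Fin 2 → K)) (g : G K) :
    botRow57 K (gamA57 K x * g) = rowOf x.rep g := by
  funext j
  unfold botRow57 rowOf
  rw [Matrix.GeneralLinearGroup.coe_mul, Matrix.mul_apply, Fin.sum_univ_two, gamA_entry69,
    gamA_entry69, gamMat_one_zero69, gamMat_one_one69]

theorem det_gamA69 (x : Projectivization K (Fin 2 → K)) (g : G K) :
    Matrix.det ((gamA57 K x * g : G K) : Matrix (Fin 2) (Fin 2) (Adl K))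
      = Matrix.det (g : Matrix (Fin 2) (Fin 2) (Adl K)) := by
  have h1 : Matrix.det ((gamA57 K x : G K) : Matrix (Fin 2) (Fin 2) (Adl K)) = 1 := by
    have h2 : ((gamA57 K x : G K) : Matrix (Fin 2) (Fin 2) (Adl K))
        = (algebraMap K (Adl K)).mapMatrix (gamMat57 K x) := by
      ext i j
      rw [gamA_entry69]
      rfl
    rw [h2, ← RingHom.map_det, det_gamMat57, map_one]
  rw [Matrix.GeneralLinearGroup.coe_mul, Matrix.det_mul, h1, one_mul]

/-- The key identity: `γ_x g ∈ E_Y` iff `x` is counted at `g`. -/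
theorem mem_EY_gam69 (𝔪 : Ideal (𝓞 K)) (Y : ℝ) (x : Projectivization K (Fin 2 → K)) (g : G K) :
    gamA57 K x * g ∈ EY57 K 𝔪 Y ↔ x ∈ cntSet 𝔪 Y g := by
  simp only [EY57, Om57, cntSet, Set.mem_ofPred_eq, botRow_gamA69, det_gamA69]

/-! ## Measurability -/

theorem measurable_leftMul69 (a : G K) : Measurable (fun g : G K => a * g) := by
  have : BorelSpace (G K) := ⟨rfl⟩
  exact (continuous_const.mul continuous_id).measurable

theorem measurableSet_EY69 (𝔪 : Ideal (𝓞 K)) (Y : ℝ) : MeasurableSet (EY57 K 𝔪 Y) := by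
  have h0 : (![0, 1] : Fin 2 → K) ≠ 0 := by
    intro h
    have := congrFun h 1
    simp at this
  set x₀ : Projectivization K (Fin 2 → K) := Projectivization.mk K ![0, 1] h0
  have h : EY57 K 𝔪 Y
      = (fun g : G K => (gamA57 K x₀)⁻¹ * g) ⁻¹' {g : G K | x₀ ∈ cntSet 𝔪 Y g} := by
    ext g
    rw [Set.mem_preimage, Set.mem_ofPred_eq, ← mem_EY_gam69, mul_inv_cancel_left]
  rw [h]
  exact measurable_leftMul69 K _ (H724.measurableSet_mem_cntSet724 𝔪 Y x₀)

theorem measurableSet_gamF69 (F : Set (G K)) (hF : MeasurableSet F)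
    (x : Projectivization K (Fin 2 → K)) :
    MeasurableSet {h : G K | (gamA57 K x)⁻¹ * h ∈ F} :=
  measurable_leftMul69 K _ hF

theorem measurable_fnX69 (𝔪 : Ideal (𝓞 K)) (F : Set (G K)) (hF : MeasurableSet F)
    (Φ : G K → ℝ≥0∞) (hΦ : Measurable Φ) (Y : ℝ) (x : Projectivization K (Fin 2 → K)) :
    Measurable (fnX57 K 𝔪 F Φ Y x) := by
  unfold fnX57
  exact (hΦ.mul (measurable_one.indicator (measurableSet_EY69 K 𝔪 Y))).mul
    (measurable_one.indicator (measurableSet_gamF69 K F hF x))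

/-! ## The integral of one summand -/

theorem fnX_gam69 (𝔪 : Ideal (𝓞 K)) (F : Set (G K)) (Φ : G K → ℝ≥0∞) (hinv : IsLeftInvE57 K Φ)
    (Y : ℝ) (x : Projectivization K (Fin 2 → K)) (g : G K) :
    fnX57 K 𝔪 F Φ Y x (gamA57 K x * g)
      = F.indicator (fun g => Φ g * ({g : G K | x ∈ cntSet 𝔪 Y g}).indicator 1 g) g := by
  have hΦ : Φ (gamA57 K x * g) = Φ g := hinv (gam57 K x) g
  unfold fnX57
  rw [hΦ]
  by_cases hg : g ∈ F
  · have h1 : gamA57 K x * g ∈ {h : G K | (gamA57 K x)⁻¹ * h ∈ F} := by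
      rw [Set.mem_ofPred_eq, inv_mul_cancel_left]
      exact hg
    rw [Set.indicator_of_mem hg, Set.indicator_of_mem h1, Pi.one_apply, mul_one]
    by_cases hx : x ∈ cntSet 𝔪 Y g
    · have h2 : gamA57 K x * g ∈ EY57 K 𝔪 Y := (mem_EY_gam69 K 𝔪 Y x g).mpr hx
      have h3 : g ∈ {g : G K | x ∈ cntSet 𝔪 Y g} := hx
      rw [Set.indicator_of_mem h2, Set.indicator_of_mem h3]
      rfl
    · have h2 : gamA57 K x * g ∉ EY57 K 𝔪 Y := fun h => hx ((mem_EY_gam69 K 𝔪 Y x g).mp h)
      have h3 : g ∉ {g : G K | x ∈ cntSet 𝔪 Y g} := hx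
      rw [Set.indicator_of_notMem h2, Set.indicator_of_notMem h3]
  · have h1 : gamA57 K x * g ∉ {h : G K | (gamA57 K x)⁻¹ * h ∈ F} := by
      rw [Set.mem_ofPred_eq, inv_mul_cancel_left]
      exact hg
    rw [Set.indicator_of_notMem hg, Set.indicator_of_notMem h1, mul_zero]

theorem lintegral_fnX69 (μ : Measure (G K)) [μ.IsMulLeftInvariant] (𝔪 : Ideal (𝓞 K))
    (F : Set (G K)) (hF : MeasurableSet F) (Φ : G K → ℝ≥0∞) (hinv : IsLeftInvE57 K Φ)
    (Y : ℝ) (x : Projectivization K (Fin 2 → K)) :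
    ∫⁻ g, fnX57 K 𝔪 F Φ Y x g ∂μ
      = ∫⁻ g in F, Φ g * ({g : G K | x ∈ cntSet 𝔪 Y g}).indicator 1 g ∂μ := by
  have : BorelSpace (G K) := ⟨rfl⟩
  rw [← lintegral_mul_left_eq_self (fnX57 K 𝔪 F Φ Y x) (gamA57 K x)]
  simp only [fnX_gam69 K 𝔪 F Φ hinv Y x]
  exact lintegral_indicator hF _

/-! ## The sum of the indicators -/

theorem tsum_indicator_cnt69 (𝔪 : Ideal (𝓞 K)) (Y : ℝ) (g : G K) :
    ∑' x : Projectivization K (Fin 2 → K),
        (({g : G K | x ∈ cntSet 𝔪 Y g}).indicator (1 : G K → ℝ≥0∞) g)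
      = (((cntSet 𝔪 Y g).encard : ℕ∞) : ℝ≥0∞) := by
  rw [← ENNReal.tsum_set_one, tsum_subtype (cntSet 𝔪 Y g) (fun _ => (1 : ℝ≥0∞))]
  refine tsum_congr fun x => ?_
  by_cases hx : x ∈ cntSet 𝔪 Y g
  · have h3 : g ∈ {g : G K | x ∈ cntSet 𝔪 Y g} := hx
    rw [Set.indicator_of_mem h3, Set.indicator_of_mem hx, Pi.one_apply]
  · have h3 : g ∉ {g : G K | x ∈ cntSet 𝔪 Y g} := hx
    rw [Set.indicator_of_notMem h3, Set.indicator_of_notMem hx]

/-! ## The leaf -/

/-- **LEAF T7.14.6a-F.11 `CntSumC57`.** -/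
theorem cntSumC69 (_h : Fermat.Agent.LT.T1.T1Out K) : H57.CntSumC57 K := by
  intro _ μ F hfr S 𝔪 _ Φ hΦ hinv Y _
  have : Countable (Projectivization K (Fin 2 → K)) := H724.countable_proj724 K
  have : μ.IsHaarMeasure := hfr.haar
  have hF : MeasurableSet F := hfr.meas
  have hmeas : ∀ x, Measurable (fnX57 K 𝔪 F Φ Y x) := fun x => measurable_fnX69 K 𝔪 F hF Φ hΦ Y x
  refine ⟨Measurable.ennreal_tsum hmeas, ?_⟩
  have hcnt : ∀ x : Projectivization K (Fin 2 → K),
      Measurable (fun g : G K => Φ g * ({g : G K | x ∈ cntSet 𝔪 Y g}).indicator 1 g) := fun x =>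
    hΦ.mul (measurable_one.indicator (H724.measurableSet_mem_cntSet724 𝔪 Y x))
  calc ∫⁻ g, fnE57 K 𝔪 F Φ Y g ∂μ
      = ∫⁻ g, ∑' x : Projectivization K (Fin 2 → K), fnX57 K 𝔪 F Φ Y x g ∂μ := rfl
    _ = ∑' x : Projectivization K (Fin 2 → K), ∫⁻ g, fnX57 K 𝔪 F Φ Y x g ∂μ :=
        lintegral_tsum fun x => (hmeas x).aemeasurable
    _ = ∑' x : Projectivization K (Fin 2 → K),
          ∫⁻ g in F, Φ g * ({g : G K | x ∈ cntSet 𝔪 Y g}).indicator 1 g ∂μ :=
        tsum_congr fun x => lintegral_fnX69 K μ 𝔪 F hF Φ hinv Y x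
    _ = ∫⁻ g in F, ∑' x : Projectivization K (Fin 2 → K),
          Φ g * ({g : G K | x ∈ cntSet 𝔪 Y g}).indicator 1 g ∂μ :=
        (lintegral_tsum fun x => (hcnt x).aemeasurable).symm
    _ = ∫⁻ g in F, Φ g * (((cntSet 𝔪 Y g).encard : ℕ∞) : ℝ≥0∞) ∂μ := by
        refine lintegral_congr fun g => ?_
        rw [ENNReal.tsum_mul_left, tsum_indicator_cnt69]

end Fermat.Agent.LT.T7.H69

end
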